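import Fermat.Agent.Kubert.Exponents

/-!
# A semistable model with given `c₄` and `c₆`

Coprime `x`, `y` with `1728 ∣ x³ - y²` are, up to the sign of `y`, the invariants `c₄`, `c₆` of an
integral semistable equation with `a₁ = 1`, `a₃ = 0`.
-/

set_option autoImplicit false

noncomputable section

open WeierstrassCurve

namespace FA.Signature23

theorem mod_sixteen : ∀ x y : ZMod 16, x ^ 3 = y ^ 2 → 8 * y ≠ 0 → x = 1 ∨ x = 9 := by decide

theorem mod_three : ∀ x y : ZMod 3, x ^ 3 = y ^ 2 → y ≠ 0 → x = 1 := by decide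

theorem not_dvd_of_coprime {x y D : ℤ} (hco : IsCoprime x y) (h : x ^ 3 - y ^ 2 = D) {q : ℤ}
    (hq : Prime q) (hD : q ∣ D) : ¬ q ∣ x ∧ ¬ q ∣ y := by
  constructor <;> intro hd
  · have : q ∣ y ^ 2 := by
      rw [show y ^ 2 = x ^ 3 - D by linarith]
      exact dvd_sub (dvd_pow hd (by norm_num)) hD
    exact hq.not_isUnit (hco.isUnit_of_dvd' hd (hq.dvd_of_dvd_pow this))
  · have : q ∣ x ^ 3 := by
      rw [show x ^ 3 = y ^ 2 + D by linarith]
      exact dvd_add (dvd_pow hd (by norm_num)) hD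
    exact hq.not_isUnit (hco.isUnit_of_dvd' (hq.dvd_of_dvd_pow this) hd)

/-- The congruences that fix `b₂ = b`. -/
theorem exists_b {x y D : ℤ} (hco : IsCoprime x y) (h : x ^ 3 - y ^ 2 = 1728 * D)
    (hy4 : y % 4 = 3) : ∃ b : ℤ, b % 4 = 1 ∧ 48 ∣ b ^ 2 - x ∧ 3 ∣ y + b ∧ ¬ (3 : ℤ) ∣ y := by
  have h3y : ¬ (3 : ℤ) ∣ y :=
    (not_dvd_of_coprime hco h Int.prime_three (dvd_mul_of_dvd_left (by norm_num) D)).2
  have e16 : (x : ZMod 16) ^ 3 = (y : ZMod 16) ^ 2 := by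
    have := congrArg (Int.cast : ℤ → ZMod 16) h
    push_cast at this
    rwa [show (1728 : ZMod 16) = 0 from rfl, zero_mul, sub_eq_zero] at this
  have e3 : (x : ZMod 3) ^ 3 = (y : ZMod 3) ^ 2 := by
    have := congrArg (Int.cast : ℤ → ZMod 3) h
    push_cast at this
    rwa [show (1728 : ZMod 3) = 0 from rfl, zero_mul, sub_eq_zero] at this
  have hx3 : x % 3 = 1 := by
    have := mod_three _ _ e3 (by rwa [Ne, ZMod.intCast_zmod_eq_zero_iff_dvd])
    rw [← Int.cast_one, ZMod.intCast_eq_intCast_iff'] at this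
    simpa using this
  have hx16 : x % 16 = 1 ∨ x % 16 = 9 := by
    have h8 : (8 : ZMod 16) * (y : ZMod 16) ≠ 0 := fun h8 => by
      rw [show (8 : ZMod 16) * (y : ZMod 16) = ((8 * y : ℤ) : ZMod 16) by push_cast; rfl,
        ZMod.intCast_zmod_eq_zero_iff_dvd] at h8
      omega
    rcases mod_sixteen _ _ e16 h8 with e | e
    · rw [← Int.cast_one, ZMod.intCast_eq_intCast_iff'] at e
      exact Or.inl (by simpa using e)
    · rw [show (9 : ZMod 16) = ((9 : ℤ) : ZMod 16) from rfl, ZMod.intCast_eq_intCast_iff'] at e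
      exact Or.inr (by simpa using e)
  rcases hx16 with hx | hx <;> rcases (by omega : y % 3 = 1 ∨ y % 3 = 2) with hy | hy
  · exact ⟨17, by omega, by omega, by omega, h3y⟩
  · exact ⟨1, by omega, by omega, by omega, h3y⟩
  · exact ⟨5, by omega, by omega, by omega, h3y⟩
  · exact ⟨13, by omega, by omega, by omega, h3y⟩

/-- **The semistable model with given `c₄`, `c₆`.** -/
theorem exists_semistable_model {x y D : ℤ} (hco : IsCoprime x y)
    (h : x ^ 3 - y ^ 2 = 1728 * D) : ∃ W : WeierstrassCurve ℤ, W.c₄ = x ∧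
      (W.c₆ = y ∨ W.c₆ = -y) ∧ W.Δ = D ∧
        ∀ q : ℕ, q.Prime → (q : ℤ) ∣ W.Δ → ¬ (q : ℤ) ∣ W.c₄ := by
  have h2y : ¬ (2 : ℤ) ∣ y :=
    (not_dvd_of_coprime hco h Int.prime_two (dvd_mul_of_dvd_left (by norm_num) D)).2
  wlog hy4 : y % 4 = 3 generalizing y
  · obtain ⟨W, h1, h2, h3⟩ := this (y := -y) hco.neg_right (by linear_combination h)
      (by rwa [dvd_neg]) (by omega)
    exact ⟨W, h1, by simpa [or_comm] using h2, h3⟩
  obtain ⟨b, hb4, ⟨k, hk⟩, hb3, h3y⟩ := exists_b hco h hy4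
  obtain ⟨e, rfl⟩ : ∃ e, b = 1 + 4 * e := ⟨b / 4, by omega⟩
  obtain rfl : x = (1 + 4 * e) ^ 2 - 48 * k := by linarith
  obtain ⟨c, hc⟩ : ∃ c, c = (1 + 4 * e) ^ 3 - 72 * (1 + 4 * e) * k := ⟨_, rfl⟩
  have hc4 : c % 4 = 1 := by
    rw [show c = 1 + 4 * (3 * e + 12 * e ^ 2 + 16 * e ^ 3 - 18 * k - 72 * e * k) by rw [hc]; ring]
    omega
  have hc3 : (3 : ℤ) ∣ y + c := by
    have he : (((1 + 4 * e : ℤ) : ZMod 3)) ^ 3 = ((1 + 4 * e : ℤ) : ZMod 3) := ZMod.pow_card _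
    refine (ZMod.intCast_zmod_eq_zero_iff_dvd _ 3).1 ?_
    have hb := (ZMod.intCast_zmod_eq_zero_iff_dvd _ 3).2 hb3
    rw [hc]
    push_cast at he hb ⊢
    rw [show (72 : ZMod 3) = 0 from rfl, he]
    linear_combination hb
  obtain ⟨m, hm⟩ : (2 : ℤ) ∣ y - c := by omega
  have hm2 : ¬ (2 : ℤ) ∣ m := by omega
  have hm3 : ¬ (3 : ℤ) ∣ m := by omega
  have hdvd : (864 : ℤ) ∣ m * (y + c) :=
    ⟨(1 + 4 * e) ^ 2 * k ^ 2 - 64 * k ^ 3 - D, by
      refine mul_left_cancel₀ (two_ne_zero (α := ℤ)) ?_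
      rw [← mul_assoc, ← hm, hc]
      linear_combination -h⟩
  have hcop : IsCoprime (864 : ℤ) m := by
    rw [show (864 : ℤ) = 2 ^ 5 * 3 ^ 3 by norm_num]
    exact (((Int.prime_two.irreducible.coprime_iff_not_dvd).2 hm2).pow_left).mul_left
      (((Int.prime_three.irreducible.coprime_iff_not_dvd).2 hm3).pow_left)
  obtain ⟨r, hr⟩ := hcop.dvd_of_dvd_mul_left hdvd
  let W : WeierstrassCurve ℤ := ⟨1, e, 0, k, -r⟩
  have h4 : W.c₄ = (1 + 4 * e) ^ 2 - 48 * k := by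
    simp [W, WeierstrassCurve.c₄, b₂, b₄]; ring
  have h6 : W.c₆ = y := by
    simp [W, WeierstrassCurve.c₆, b₂, b₄, b₆]
    linear_combination -hr + hc
  have hΔ : W.Δ = D := by
    have := W.c_relation
    rw [h4, h6, h] at this
    linarith
  refine ⟨W, h4, Or.inl h6, hΔ, fun q hq hd => ?_⟩
  rw [h4]
  exact (not_dvd_of_coprime hco h (Nat.prime_iff_prime_int.1 hq)
    (dvd_mul_of_dvd_right (hΔ ▸ hd) 1728)).1

end FA.Signature23

end
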